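import Fermat.Agent.S48.W2.Main

/-!
# S48 / W2 : CONSEQUENCES.  The Hecke field of a formal eigenform is a number field, `a_p` is integral

TASKS `S48/W2-FG-A` (`adjoin_fg_abstract`, pure algebra), `S48/W2-FG-B` (the three corollaries).

PROOF of `adjoin_fg_abstract`.  `W := E.toSubmodule * Submodule.span ℤ (Set.range a)` (product of `ℤ`-submodules
of `ℂ`).  `W ≤ E.toSubmodule * L`, which is FG (`Submodule.FG.mul`), and `ℤ` is noetherian, so every submodule
of `W` is FG (`Submodule.FG.of_le`, or `isNoetherian_of_fg_of_noetherian` + `isNoetherian_submodule`).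
`1 = 1 * a 1 ∈ W`.  `W` is stable under multiplication by `x ∈ E` (clear) and by `a p`, `P p`:
`a p * (x * a n) = x * a (p n) + (x * e p) * (a (n/p) or 0) ∈ W` by `hT`
(`Submodule.mul_induction_on`, `Submodule.span_induction`).
So (`Algebra.adjoin_induction`) `r * w ∈ W` for all `r` in the adjoin and `w ∈ W`; take `w = 1`.

COROLLARIES.  `E := Algebra.adjoin ℤ (Set.range ε)`: `Set.range ε` is finite and each `ε x` is integral over `ℤ`
(`0` or a root of unity: `ε x ^ φ(N) = 1` for units, `MulChar.map_nonunit` otherwise), so `E.toSubmodule.FG`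
(`Algebra.IsIntegral`/`fg_adjoin_of_finite`).  `L` from `exists_fg_qCoeff`.
Integrality: `IsIntegral.of_mem_of_fg`.  Number field: the `ℚ`-span of a FG `ℤ`-subalgebra `R ⊆ ℂ` consisting of
integral elements is a field, finite over `ℚ`; e.g. `IntermediateField.adjoin ℚ S` for `S` a FINITE set of
generators … or: `IntermediateField.finiteDimensional_adjoin`-type lemma needs finitely many generators:
take a finite `ℤ`-module generating set `T` of `R`; `S ⊆ R ⊆ span_ℤ T ⊆ adjoin ℚ T`, so
`adjoin ℚ S ≤ adjoin ℚ T`, `T` finite and integral ⟹ finite dimensional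
(`IntermediateField.finiteDimensional_adjoin`), and a subfield of a finite extension is finite.
-/

set_option autoImplicit false

open UpperHalfPlane
open scoped MatrixGroups Manifold ModularForm

namespace Fermat.Agent.S48.W2

/-- TASK `S48/W2-FG-A`. -/
theorem adjoin_fg_abstract (a e : ℕ → ℂ) (P : ℕ → Prop)
    (L : Submodule ℤ ℂ) (hL : L.FG) (haL : ∀ n, a n ∈ L) (ha1 : a 1 = 1)
    (E : Subalgebra ℤ ℂ) (hE : E.toSubmodule.FG) (heE : ∀ p, P p → e p ∈ E)
    (hT : ∀ p, P p → ∀ n, a (p * n) + e p * (if p ∣ n then a (n / p) else 0) = a p * a n) :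
    (Algebra.adjoin ℤ ((E : Set ℂ) ∪ {x | ∃ p, P p ∧ x = a p})).toSubmodule.FG := by
  classical
  set A : Submodule ℤ ℂ := Submodule.span ℤ (Set.range a) with hA
  set W : Submodule ℤ ℂ := E.toSubmodule * A with hW
  have hAL : A ≤ L := Submodule.span_le.2 (by rintro _ ⟨n, rfl⟩; exact haL n)
  have hWfg : (E.toSubmodule * L).FG := hE.mul hL
  have hWle : W ≤ E.toSubmodule * L := mul_le_mul' le_rfl hAL
  have haA : ∀ n, a n ∈ A := fun n => Submodule.subset_span ⟨n, rfl⟩
  have h1W : (1 : ℂ) ∈ W := by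
    have : (1 : ℂ) * a 1 ∈ W := Submodule.mul_mem_mul (E.one_mem) (haA 1)
    simpa [ha1] using this
  -- stability under E
  have hstabE : ∀ x ∈ E, ∀ w ∈ W, x * w ∈ W := by
    intro x hx w hw
    induction hw using Submodule.mul_induction_on' with
    | mem_mul_mem y hy z hz =>
      rw [← mul_assoc]
      exact Submodule.mul_mem_mul (E.mul_mem hx hy) hz
    | add y _ z _ hy hz =>
      rw [mul_add]; exact W.add_mem hy hz
  -- a p * z ∈ W for z ∈ A
  have hstabA : ∀ p, P p → ∀ z ∈ A, a p * z ∈ W := by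
    intro p hp z hz
    induction hz using Submodule.span_induction with
    | mem z hz =>
      obtain ⟨n, rfl⟩ := hz
      rw [← hT p hp n]
      refine W.add_mem ?_ ?_
      · have : (1 : ℂ) * a (p * n) ∈ W := Submodule.mul_mem_mul (E.one_mem) (haA _)
        simpa using this
      · refine Submodule.mul_mem_mul (heE p hp) ?_
        split_ifs
        · exact haA _
        · exact A.zero_mem
    | zero => simp
    | add y z _ _ hy hz => rw [mul_add]; exact W.add_mem hy hz
    | smul c z _ hz => rw [mul_smul_comm]; exact W.smul_mem c hz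
  have hstabP : ∀ p, P p → ∀ w ∈ W, a p * w ∈ W := by
    intro p hp w hw
    induction hw using Submodule.mul_induction_on' with
    | mem_mul_mem y hy z hz =>
      rw [mul_left_comm]
      exact hstabE y hy _ (hstabA p hp z hz)
    | add y _ z _ hy hz =>
      rw [mul_add]; exact W.add_mem hy hz
  have hall : ∀ r ∈ Algebra.adjoin ℤ ((E : Set ℂ) ∪ {x | ∃ p, P p ∧ x = a p}), ∀ w ∈ W, r * w ∈ W := by
    intro r hr
    induction hr using Algebra.adjoin_induction with
    | mem x hx =>
      rcases hx with hx | ⟨p, hp, rfl⟩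
      · exact hstabE x hx
      · exact hstabP p hp
    | algebraMap c =>
      intro w hw
      rw [← Algebra.smul_def]
      exact W.smul_mem c hw
    | add x y _ _ hx hy =>
      intro w hw
      rw [add_mul]; exact W.add_mem (hx w hw) (hy w hw)
    | mul x y _ _ hx hy =>
      intro w hw
      rw [mul_assoc]; exact hx _ (hy w hw)
  have hle : (Algebra.adjoin ℤ ((E : Set ℂ) ∪ {x | ∃ p, P p ∧ x = a p})).toSubmodule
      ≤ E.toSubmodule * L := by
    intro r hr
    have := hall r hr 1 h1W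
    rw [mul_one] at this
    exact hWle this
  exact Submodule.FG.of_le hWfg hle

/-- the generators of the Hecke ring. -/
def heckeGens {N : ℕ} (ε : DirichletCharacter ℂ N) {k : ℤ}
    (f : CuspForm (CongruenceSubgroup.Gamma1 N) k) : Set ℂ :=
  Set.range ε ∪ {x | ∃ p : ℕ, p.Prime ∧ ¬ p ∣ N ∧ x = ModularFormClass.qCoeff f p}

theorem FGB_isIntegral_eps {N : ℕ} [NeZero N] (ε : DirichletCharacter ℂ N) (x : ZMod N) :
    IsIntegral ℤ (ε x) := by
  by_cases hx : IsUnit x
  · obtain ⟨u, rfl⟩ := hx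
    refine IsIntegral.of_pow (Nat.totient_pos.2 (Nat.pos_of_ne_zero (NeZero.ne N))) ?_
    rw [← map_pow, ← Units.val_pow_eq_pow_val, ZMod.pow_totient, Units.val_one, map_one]
    exact isIntegral_one
  · rw [ε.map_nonunit hx]
    exact isIntegral_zero

theorem FGB_adjoin_range_fg {N : ℕ} [NeZero N] (ε : DirichletCharacter ℂ N) :
    (Algebra.adjoin ℤ (Set.range ε)).toSubmodule.FG := by
  refine fg_adjoin_of_finite (Set.finite_range ε) ?_
  rintro _ ⟨x, rfl⟩
  exact FGB_isIntegral_eps ε x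

theorem FGB_adjoin_eq {N : ℕ} (ε : DirichletCharacter ℂ N) {k : ℤ}
    (f : CuspForm (CongruenceSubgroup.Gamma1 N) k) :
    Algebra.adjoin ℤ (((Algebra.adjoin ℤ (Set.range ε) : Subalgebra ℤ ℂ) : Set ℂ) ∪
      {x | ∃ p : ℕ, (p.Prime ∧ ¬ p ∣ N) ∧ x = ModularFormClass.qCoeff f p}) =
    Algebra.adjoin ℤ (heckeGens ε f) := by
  apply le_antisymm
  · refine Algebra.adjoin_le ?_
    rintro x (hx | ⟨p, ⟨hp, hpN⟩, rfl⟩)
    · exact Algebra.adjoin_mono Set.subset_union_left hx
    · exact Algebra.subset_adjoin (Or.inr ⟨p, hp, hpN, rfl⟩)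
  · refine Algebra.adjoin_le ?_
    rintro x (hx | ⟨p, hp, hpN, rfl⟩)
    · exact Algebra.subset_adjoin (Or.inl (Algebra.subset_adjoin hx))
    · exact Algebra.subset_adjoin (Or.inr ⟨p, ⟨hp, hpN⟩, rfl⟩)

/-- TASK `S48/W2-FG-B`.  **(FG)** -/
theorem heckeRing_fg (N : ℕ) [NeZero N] (hN : 3 ≤ N) (ε : DirichletCharacter ℂ N) (k : ℤ)
    (f : CuspForm (CongruenceSubgroup.Gamma1 N) k)
    (hf₁ : ModularFormClass.qCoeff f 1 = 1)
    (hT : ∀ p : ℕ, p.Prime → ¬ p ∣ N → ∀ n : ℕ,
        ModularFormClass.qCoeff f (p * n) +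
            ε (p : ZMod N) * (if p ∣ n then ModularFormClass.qCoeff f (n / p) else 0) =
          ModularFormClass.qCoeff f p * ModularFormClass.qCoeff f n) :
    (Algebra.adjoin ℤ (heckeGens ε f)).toSubmodule.FG := by
  obtain ⟨L, hL, haL⟩ := exists_fg_qCoeff N hN k f
  rw [← FGB_adjoin_eq]
  exact adjoin_fg_abstract (fun n => ModularFormClass.qCoeff f n) (fun p => ε (p : ZMod N))
    (fun p => p.Prime ∧ ¬ p ∣ N) L hL haL hf₁ (Algebra.adjoin ℤ (Set.range ε))
    (FGB_adjoin_range_fg ε) (fun p _ => Algebra.subset_adjoin ⟨_, rfl⟩)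
    (fun p hp n => hT p hp.1 hp.2 n)

/-- TASK `S48/W2-FG-B`.  **(I1) INT** -/
theorem isIntegral_qCoeff (N : ℕ) [NeZero N] (hN : 3 ≤ N) (ε : DirichletCharacter ℂ N) (k : ℤ)
    (f : CuspForm (CongruenceSubgroup.Gamma1 N) k)
    (hf₁ : ModularFormClass.qCoeff f 1 = 1)
    (hT : ∀ p : ℕ, p.Prime → ¬ p ∣ N → ∀ n : ℕ,
        ModularFormClass.qCoeff f (p * n) +
            ε (p : ZMod N) * (if p ∣ n then ModularFormClass.qCoeff f (n / p) else 0) =
          ModularFormClass.qCoeff f p * ModularFormClass.qCoeff f n)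
    (p : ℕ) (hp : p.Prime) (hpN : ¬ p ∣ N) : IsIntegral ℤ (ModularFormClass.qCoeff f p) := by
  exact IsIntegral.of_mem_of_fg _ (heckeRing_fg N hN ε k f hf₁ hT) _
    (Algebra.subset_adjoin (Or.inr ⟨p, hp, hpN, rfl⟩))

/-- TASK `S48/W2-FG-B`.  **the Hecke field is a number field** -/
theorem finiteDimensional_heckeField (N : ℕ) [NeZero N] (hN : 3 ≤ N) (ε : DirichletCharacter ℂ N)
    (k : ℤ) (f : CuspForm (CongruenceSubgroup.Gamma1 N) k)
    (hf₁ : ModularFormClass.qCoeff f 1 = 1)
    (hT : ∀ p : ℕ, p.Prime → ¬ p ∣ N → ∀ n : ℕ,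
        ModularFormClass.qCoeff f (p * n) +
            ε (p : ZMod N) * (if p ∣ n then ModularFormClass.qCoeff f (n / p) else 0) =
          ModularFormClass.qCoeff f p * ModularFormClass.qCoeff f n) :
    FiniteDimensional ℚ (IntermediateField.adjoin ℚ (heckeGens ε f)) := by
  have hfg := heckeRing_fg N hN ε k f hf₁ hT
  obtain ⟨T, hT'⟩ := hfg
  have hTR : ∀ x ∈ (T : Set ℂ), x ∈ Algebra.adjoin ℤ (heckeGens ε f) := by
    intro x hx
    have : x ∈ Submodule.span ℤ (T : Set ℂ) := Submodule.subset_span hx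
    rw [hT'] at this
    exact this
  have hint : ∀ x ∈ (T : Set ℂ), IsIntegral ℚ x := by
    intro x hx
    exact (IsIntegral.of_mem_of_fg _ (heckeRing_fg N hN ε k f hf₁ hT) x (hTR x hx)).tower_top
  have hfin : FiniteDimensional ℚ (IntermediateField.adjoin ℚ (T : Set ℂ)) :=
    IntermediateField.finiteDimensional_adjoin hint
  have hle : IntermediateField.adjoin ℚ (heckeGens ε f) ≤ IntermediateField.adjoin ℚ (T : Set ℂ) := by
    rw [IntermediateField.adjoin_le_iff]
    intro x hx
    have h1 : x ∈ (Algebra.adjoin ℤ (heckeGens ε f)).toSubmodule := Algebra.subset_adjoin hx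
    rw [← hT'] at h1
    refine Submodule.span_induction (p := fun y _ => y ∈ IntermediateField.adjoin ℚ (T : Set ℂ))
      (fun y hy => IntermediateField.subset_adjoin _ _ hy) (zero_mem _)
      (fun y z _ _ hy hz => add_mem hy hz) (fun n y _ hy => zsmul_mem hy n) h1
  exact FiniteDimensional.of_injective (IntermediateField.inclusion hle).toLinearMap
    (IntermediateField.inclusion hle).injective

/-- the conjugate form satisfies the conjugate relations (for (I2*): RK is applied to `f^σ`, `σ ∘ ε`). -/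
theorem exists_conj_eigen (N : ℕ) [NeZero N] (hN : 3 ≤ N) (ε : DirichletCharacter ℂ N) (k : ℤ)
    (f : CuspForm (CongruenceSubgroup.Gamma1 N) k)
    (hf₁ : ModularFormClass.qCoeff f 1 = 1)
    (hT : ∀ p : ℕ, p.Prime → ¬ p ∣ N → ∀ n : ℕ,
        ModularFormClass.qCoeff f (p * n) +
            ε (p : ZMod N) * (if p ∣ n then ModularFormClass.qCoeff f (n / p) else 0) =
          ModularFormClass.qCoeff f p * ModularFormClass.qCoeff f n) (σ : ℂ →+* ℂ) :
    ∃ g : CuspForm (CongruenceSubgroup.Gamma1 N) k,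
      (∀ n : ℕ, ModularFormClass.qCoeff g n = σ (ModularFormClass.qCoeff f n)) ∧
      ModularFormClass.qCoeff g 1 = 1 ∧
      ∀ p : ℕ, p.Prime → ¬ p ∣ N → ∀ n : ℕ,
        ModularFormClass.qCoeff g (p * n) +
            (ε.ringHomComp σ) (p : ZMod N) *
              (if p ∣ n then ModularFormClass.qCoeff g (n / p) else 0) =
          ModularFormClass.qCoeff g p * ModularFormClass.qCoeff g n := by
  obtain ⟨g, hg⟩ := exists_conj N hN k f σ
  refine ⟨g, hg, by rw [hg, hf₁, map_one], fun p hp hpN n => ?_⟩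
  have h := congrArg σ (hT p hp hpN n)
  rw [map_add, map_mul, map_mul] at h
  simp only [hg, MulChar.ringHomComp_apply]
  rw [← h]
  congr 2
  split_ifs
  · rfl
  · rw [map_zero]

end Fermat.Agent.S48.W2
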