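import Mathlib

/-!
# S48 / W2 : the sums `S(a) = ∑_{y ≡ a (N)} y⁻³` (Mathlib only)

TASK `S48/W2-S3`.

PROOF.  (reindex) for `0 ≤ a < N`: `S3 N a = ∑' m : ℤ, ((a + m N)³)⁻¹` (the map `m ↦ a + m N` is injective
with range `{y | (y : ZMod N) = a}`: `Function.Injective.tsum_eq`, `ZMod.intCast_eq_intCast_iff_dvd_sub`…).
Summability: `Real.summable_one_div_int_add_rpow` / comparison with `∑ 1/|y|³`
(`Real.summable_abs_int_rpow`, `Real.summable_one_div_int_pow`), the indicator only makes terms smaller.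
(strictAnti) for `0 < a < b < N` EVERY term decreases strictly: `x ↦ (x³)⁻¹` is strictly decreasing on
`x > 0` and on `x < 0`, and `a + m N`, `b + m N` have the same sign (`> 0` if `m ≥ 0`, `< 0` if `m < 0`).
`Summable.tsum_lt_tsum` (or `tsum_lt_tsum`).
(neg) `y ↦ -y` (`tsum_comp_neg` / `Equiv.neg`).
(inj) write `a = a.val`, `b = b.val`, trichotomy.
(ne_zero) `S(1) > S(N-1) = S(-1) = -S(1)` as `1 < N - 1`.
-/

set_option autoImplicit false

namespace Fermat.Agent.S48.W2

noncomputable section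

/-- `S(a) = ∑_{y ≡ a (N)} y⁻³`. -/
def S3 (N : ℕ) (a : ZMod N) : ℝ := ∑' y : ℤ, if (y : ZMod N) = a then ((y : ℝ) ^ 3)⁻¹ else 0

theorem summable_S3 (N : ℕ) (a : ZMod N) :
    Summable fun y : ℤ => if (y : ZMod N) = a then ((y : ℝ) ^ 3)⁻¹ else 0 := by
  have h : Summable fun y : ℤ => |1 / (y : ℝ) ^ 3| :=
    (Real.summable_one_div_int_pow.mpr (by norm_num : 1 < 3)).abs
  refine Summable.of_norm_bounded h fun y => ?_
  split_ifs
  · rw [Real.norm_eq_abs, one_div]
  · rw [norm_zero]; exact abs_nonneg _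

theorem S3_neg (N : ℕ) (a : ZMod N) : S3 N (-a) = - S3 N a := by
  unfold S3
  rw [← (Equiv.neg ℤ).tsum_eq, ← tsum_neg]
  refine tsum_congr fun y => ?_
  simp only [Equiv.neg_apply, Int.cast_neg, neg_inj]
  split_ifs
  · rw [Odd.neg_pow (by decide : Odd 3), inv_neg]
  · simp

namespace S3aux

/-- reindexing along `m ↦ a + m N`. -/
theorem S3_eq_tsum (N : ℕ) (hN : N ≠ 0) (a : ℤ) :
    S3 N (a : ZMod N) = ∑' m : ℤ, (((a + m * N : ℤ) : ℝ) ^ 3)⁻¹ := by
  unfold S3
  have hinj : Function.Injective fun m : ℤ => a + m * (N : ℤ) := by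
    intro m m' h
    have h' : m * (N : ℤ) = m' * N := by simpa using h
    exact mul_right_cancel₀ (by exact_mod_cast hN) h'
  rw [← hinj.tsum_eq]
  · refine tsum_congr fun m => ?_
    rw [if_pos]
    push_cast
    simp
  · intro y hy
    have hy' : (y : ZMod N) = (a : ZMod N) := by
      by_contra hne
      exact hy (by simp [hne])
    rw [ZMod.intCast_eq_intCast_iff_dvd_sub] at hy'
    obtain ⟨c, hc⟩ := hy'
    exact ⟨-c, by simp only; linarith [hc, mul_comm (N : ℤ) c]⟩

theorem summable_reindex (N : ℕ) (hN : N ≠ 0) (a : ℤ) :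
    Summable fun m : ℤ => (((a + m * N : ℤ) : ℝ) ^ 3)⁻¹ := by
  have hinj : Function.Injective fun m : ℤ => a + m * (N : ℤ) := by
    intro m m' h
    have h' : m * (N : ℤ) = m' * N := by simpa using h
    exact mul_right_cancel₀ (by exact_mod_cast hN) h'
  have h := (summable_S3 N (a : ZMod N)).comp_injective hinj
  refine h.congr fun m => ?_
  simp only [Function.comp]
  rw [if_pos]
  push_cast
  simp

theorem term_lt {x y : ℝ} (hxy : x < y) (h : 0 < x ∨ y < 0) : (y ^ 3)⁻¹ < (x ^ 3)⁻¹ := by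
  have hcube : x ^ 3 < y ^ 3 := (Odd.strictMono_pow (by decide : Odd 3)) hxy
  rcases h with h | h
  · have hx3 : 0 < x ^ 3 := pow_pos h 3
    exact (inv_lt_inv₀ (hx3.trans hcube) hx3).mpr hcube
  · have hy3 : y ^ 3 < 0 := Odd.pow_neg (by decide : Odd 3) h
    exact (inv_lt_inv_of_neg hy3 (hcube.trans hy3)).mpr hcube

end S3aux

open S3aux in
theorem S3_lt (N : ℕ) {a b : ℕ} (ha : 0 < a) (hab : a < b) (hb : b < N) :
    S3 N (b : ZMod N) < S3 N (a : ZMod N) := by
  have hN : N ≠ 0 := by omega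
  have h1 := S3_eq_tsum N hN (a : ℤ)
  have h2 := S3_eq_tsum N hN (b : ℤ)
  rw [Int.cast_natCast] at h1 h2
  rw [h1, h2]
  have key : ∀ m : ℤ, ((((b : ℤ) + m * N : ℤ) : ℝ) ^ 3)⁻¹ < ((((a : ℤ) + m * N : ℤ) : ℝ) ^ 3)⁻¹ := by
    intro m
    apply term_lt
    · exact_mod_cast (by omega : (a : ℤ) + m * N < (b : ℤ) + m * N)
    · rcases le_or_gt 0 m with hm | hm
      · left
        have : 0 ≤ m * (N : ℤ) := mul_nonneg hm (by positivity)
        exact_mod_cast (by omega : (0 : ℤ) < (a : ℤ) + m * N)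
      · right
        have : m * (N : ℤ) ≤ -1 * N := mul_le_mul_of_nonneg_right (by omega) (by positivity)
        exact_mod_cast (by omega : (b : ℤ) + m * N < 0)
  exact Summable.tsum_lt_tsum (i := 0) (fun m => (key m).le) (key 0)
    (summable_reindex N hN b) (summable_reindex N hN a)

theorem S3_inj (N : ℕ) [NeZero N] {a b : ZMod N} (ha : a ≠ 0) (hb : b ≠ 0) (h : S3 N a = S3 N b) :
    a = b := by
  have ha' : 0 < a.val := Nat.pos_of_ne_zero fun h0 => ha ((ZMod.val_eq_zero a).mp h0)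
  have hb' : 0 < b.val := Nat.pos_of_ne_zero fun h0 => hb ((ZMod.val_eq_zero b).mp h0)
  have hea : ((a.val : ℕ) : ZMod N) = a := ZMod.natCast_zmod_val a
  have heb : ((b.val : ℕ) : ZMod N) = b := ZMod.natCast_zmod_val b
  rcases lt_trichotomy a.val b.val with hlt | heq | hlt
  · have := S3_lt N ha' hlt (ZMod.val_lt b)
    rw [hea, heb, h] at this
    exact absurd this (lt_irrefl _)
  · rw [← hea, ← heb, heq]
  · have := S3_lt N hb' hlt (ZMod.val_lt a)
    rw [hea, heb, h] at this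
    exact absurd this (lt_irrefl _)

theorem S3_neg_one_ne_zero (N : ℕ) (hN : 3 ≤ N) : S3 N (-1) ≠ 0 := by
  have h := S3_lt N (a := 1) (b := N - 1) one_pos (by omega) (by omega)
  have hc : ((N - 1 : ℕ) : ZMod N) = -1 := by
    rw [Nat.cast_sub (by omega)]
    simp
  rw [hc, Nat.cast_one, S3_neg] at h
  rw [S3_neg]
  intro h0
  have : S3 N 1 = 0 := by linarith
  rw [this] at h
  simp at h

end

end Fermat.Agent.S48.W2
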