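import Fermat.Agent.S48.W2.Prim
import Fermat.Agent.S48.W2.S3

/-!
# S48 / W2 : the stabiliser of the primitive element `H` in `SL₂(ℤ)` is `Γ₁(N)` (`N ≥ 3`)

TASKS `S48/W2-Stab-A` (`SS_eq`, `eq_one_of_SS_eq`), `S48/W2-Stab-B` (`tendsto_Hform_slash`),
`S48/W2-Stab-C` (`mem_Gamma1_of_slash_eq`).

MATHS.  `H ∣ g = K⁻¹ ∑_v cH(v g⁻¹) (v₀ τ + v₁)⁻³` (`Hform_slash`), `cH(v g⁻¹) = [v₀ g₁₁ - v₁ g₁₀ ≡ 1]`
(`cH_vecMul_inv`).  Along `τ = zn n = (n+1) i → i∞` (`Eis3.Gc_tendsto`) only the terms `v₀ = 0` survive: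
limit `= K⁻¹ ∑_{y : -y g₁₀ ≡ 1 (N)} y⁻³ = K⁻¹ SS N (g 1 0)`.
`SS N u = 0` if `u` is not a unit mod `N` (empty sum), `= S3 N (-u⁻¹)` if `u` is a unit.
`SS N u = SS N 1 = S3 N (-1) ≠ 0` forces `u` unit and `-u⁻¹ = -1` (`S3_inj`), i.e. `u = 1`.
If `H ∣ γ = H` then `H ∣ (γ δ) = H ∣ δ` for all `δ`; `(γ δ)₁₀ = γ₁₀ δ₀₀ + γ₁₁ δ₁₀`.
`δ = S = (0 -1; 1 0)`: `SS(γ₁₁) = SS(1)`, so `γ₁₁ ≡ 1`;  `δ = (1 0; 1 1)`: `SS(γ₁₀ + γ₁₁) = SS(1)`, so `γ₁₀ ≡ 0`;
`det γ = 1` gives `γ₀₀ ≡ 1`.  (`CongruenceSubgroup.Gamma1_mem`.)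
-/

set_option autoImplicit false

open UpperHalfPlane EisensteinSeries Matrix Filter Topology
open scoped MatrixGroups Manifold ModularForm

namespace Fermat.Agent.S48.W2

open Fermat.Agent.S23 Eis3

noncomputable section

/-- `∑_{y : -y u ≡ 1 (N)} y⁻³`. -/
def SS (N : ℕ) (u : ℤ) : ℝ :=
  ∑' y : ℤ, if ((-(y * u) : ℤ) : ZMod N) = 1 then ((y : ℝ) ^ 3)⁻¹ else 0

/-- TASK `S48/W2-Stab-A`. -/
theorem SS_one (N : ℕ) : SS N 1 = S3 N (-1) := by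
  unfold SS S3
  refine tsum_congr fun y => ?_
  have : (((-(y * 1) : ℤ) : ZMod N) = 1) ↔ ((y : ZMod N) = -1) := by
    push_cast
    rw [mul_one, neg_eq_iff_eq_neg]
  simp only [this]

/-- TASK `S48/W2-Stab-A`. -/
theorem eq_one_of_SS_eq (N : ℕ) [NeZero N] (hN : 3 ≤ N) {u : ℤ} (h : SS N u = SS N 1) :
    (u : ZMod N) = 1 := by
  have hne : SS N u ≠ 0 := by rw [h, SS_one]; exact S3_neg_one_ne_zero N hN
  have : Fact (1 < N) := ⟨by omega⟩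
  by_cases hu : IsUnit (u : ZMod N)
  · obtain ⟨w, hw⟩ := hu
    have hS : SS N u = S3 N (-(↑(w⁻¹) : ZMod N)) := by
      unfold SS S3
      refine tsum_congr fun y => ?_
      have : (((-(y * u) : ℤ) : ZMod N) = 1) ↔ ((y : ZMod N) = -(↑(w⁻¹) : ZMod N)) := by
        push_cast
        rw [← hw]
        constructor
        · intro h1
          have h2 : (y : ZMod N) * (w : ZMod N) * (↑(w⁻¹) : ZMod N) = -1 * (↑(w⁻¹) : ZMod N) := by
            rw [← h1]; ring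
          rw [mul_assoc, Units.mul_inv, mul_one] at h2
          rw [h2]; ring
        · intro h1
          rw [h1]
          have : (↑(w⁻¹) : ZMod N) * (w : ZMod N) = 1 := Units.inv_mul w
          linear_combination this
      simp only [this]
    rw [hS, SS_one] at h
    have h3 := S3_inj N (neg_ne_zero.mpr (Units.ne_zero _)) (neg_ne_zero.mpr one_ne_zero) h
    have h4 : (↑(w⁻¹) : ZMod N) = 1 := neg_injective h3
    have h5 : w⁻¹ = 1 := Units.ext h4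
    have h6 : w = 1 := inv_eq_one.mp h5
    rw [← hw, h6]; rfl
  · exfalso
    apply hne
    unfold SS
    have : ∀ y : ℤ, ¬ (((-(y * u) : ℤ) : ZMod N) = 1) := by
      intro y hy
      apply hu
      push_cast at hy
      exact IsUnit.of_mul_eq_one (-(y : ZMod N)) (by rw [mul_comm]; linear_combination hy)
    simp only [this, if_false, tsum_zero]

/-- TASK `S48/W2-Stab-B`. -/
theorem tendsto_Hform_slash (N : ℕ) [NeZero N] (g : SL(2, ℤ)) :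
    Tendsto (fun n : ℕ => (⇑(Hform N) ∣[(3 : ℤ)] g) (zn n)) atTop
      (𝓝 (KH⁻¹ * ((SS N (g 1 0) : ℝ) : ℂ))) := by
  rw [Hform_slash]
  have h1 := Gc_tendsto
    (c := fun v => cH N (v ᵥ* ((g⁻¹ : SL(2, ℤ)) : Matrix (Fin 2) (Fin 2) ℤ)))
    (fun v => norm_cH_le N _)
  have h2 : (∑' v : Fin 2 → ℤ, if v 0 = 0 then
      cH N (v ᵥ* ((g⁻¹ : SL(2, ℤ)) : Matrix (Fin 2) (Fin 2) ℤ)) * ((v 1 : ℤ) : ℂ) ^ (-(3 : ℤ))
        else 0) = ((SS N (g 1 0) : ℝ) : ℂ) := by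
    have hinj : Function.Injective (fun y : ℤ => (![0, y] : Fin 2 → ℤ)) := by
      intro a b hab
      simpa using congrFun hab 1
    rw [← hinj.tsum_eq]
    · unfold SS
      rw [Complex.ofReal_tsum]
      refine tsum_congr fun y => ?_
      rw [cH_vecMul_inv]
      have e : ((![0, y] : Fin 2 → ℤ) 0 * g 1 1 - (![0, y] : Fin 2 → ℤ) 1 * g 1 0 : ℤ)
          = -(y * g 1 0) := by
        simp
      rw [e, if_pos (by simp)]
      by_cases hy : ((-(y * g 1 0) : ℤ) : ZMod N) = 1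
      · rw [if_pos hy, if_pos hy, one_mul, _root_.zpow_neg]
        simp
      · rw [if_neg hy, if_neg hy, zero_mul, Complex.ofReal_zero]
    · intro v hv
      rw [Function.mem_support] at hv
      have hv0 : v 0 = 0 := by
        by_contra h
        exact hv (if_neg h)
      exact ⟨v 1, by ext i; fin_cases i <;> simp [hv0]⟩
  rw [h2] at h1
  exact h1.const_mul KH⁻¹

/-- TASK `S48/W2-Stab-C`. -/
theorem mem_Gamma1_of_slash_eq (N : ℕ) [NeZero N] (hN : 3 ≤ N) (γ : SL(2, ℤ))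
    (h : ⇑(Hform N) ∣[(3 : ℤ)] γ = ⇑(Hform N)) : γ ∈ CongruenceSubgroup.Gamma1 N := by
  -- `SS ((γ δ)₁₀) = SS (δ₁₀)` for all `δ`
  have key : ∀ δ : SL(2, ℤ), SS N ((γ * δ) 1 0) = SS N (δ 1 0) := by
    intro δ
    have h1 := tendsto_Hform_slash N (γ * δ)
    have h2 := tendsto_Hform_slash N δ
    rw [SlashAction.slash_mul, h] at h1
    have h3 := tendsto_nhds_unique h1 h2
    exact Complex.ofReal_injective (mul_left_cancel₀ (inv_ne_zero KH_ne_zero) h3)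
  have hmul : ∀ δ : SL(2, ℤ), (γ * δ) 1 0 = γ 1 0 * δ 0 0 + γ 1 1 * δ 1 0 := by
    intro δ
    simp [Matrix.mul_apply, Fin.sum_univ_two]
  have e1 : ((γ 1 1 : ℤ) : ZMod N) = 1 := by
    obtain ⟨δ, h00, h10⟩ : ∃ δ : SL(2, ℤ), δ 0 0 = 0 ∧ δ 1 0 = 1 :=
      ⟨⟨!![0, -1; 1, 0], by simp [Matrix.det_fin_two]⟩, rfl, rfl⟩
    have := key δ
    rw [hmul, h00, h10, mul_zero, zero_add, mul_one] at this
    exact eq_one_of_SS_eq N hN this
  have e2 : ((γ 1 0 + γ 1 1 : ℤ) : ZMod N) = 1 := by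
    obtain ⟨δ, h00, h10⟩ : ∃ δ : SL(2, ℤ), δ 0 0 = 1 ∧ δ 1 0 = 1 :=
      ⟨⟨!![1, 0; 1, 1], by simp [Matrix.det_fin_two]⟩, rfl, rfl⟩
    have := key δ
    rw [hmul, h00, h10, mul_one, mul_one] at this
    exact eq_one_of_SS_eq N hN this
  have e3 : ((γ 1 0 : ℤ) : ZMod N) = 0 := by
    push_cast at e2
    rw [e1] at e2
    simpa using e2
  have hdet : γ 0 0 * γ 1 1 - γ 0 1 * γ 1 0 = 1 := by
    have := γ.det_coe
    rwa [Matrix.det_fin_two] at this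
  have e4 : ((γ 0 0 : ℤ) : ZMod N) = 1 := by
    have := congrArg (Int.cast : ℤ → ZMod N) hdet
    push_cast at this
    rw [e1, e3] at this
    simpa using this
  exact (CongruenceSubgroup.Gamma1_mem N γ).mpr ⟨e4, e1, e3⟩

end

end Fermat.Agent.S48.W2
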