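import Fermat.Agent.S48.W2.PrimQ
import Fermat.Agent.S48.W2.Stab
import Fermat.Prelude.Def_FLTPrelim_Modularity

/-!
# S48 / W2 : OUTPUT.  Conjugate forms and the integral structure on `S_k(Γ₁(N))`, `N ≥ 3`, all `k`
-/

set_option autoImplicit false

open UpperHalfPlane
open scoped MatrixGroups Manifold ModularForm

namespace Fermat.Agent.S48.W2

open Fermat.Agent.S23

/-- **(a) conjugate forms.** -/
theorem exists_conj (N : ℕ) [NeZero N] (hN : 3 ≤ N) (k : ℤ)
    (f : CuspForm (CongruenceSubgroup.Gamma1 N) k) (σ : ℂ →+* ℂ) :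
    ∃ g : CuspForm (CongruenceSubgroup.Gamma1 N) k,
      ∀ n : ℕ, ModularFormClass.qCoeff g n = σ (ModularFormClass.qCoeff f n) := by
  obtain ⟨g, hg⟩ := conj_cuspForm (CongruenceSubgroup.Gamma1 N) (one_mem_strictPeriods_G1 N)
    (Hform N) (BD_qe_Hform N (by omega)) (mem_Gamma1_of_slash_eq N hN) k f σ
  refine ⟨g, fun n => ?_⟩
  show (qe g).coeff n = σ ((qe f).coeff n)
  rw [hg, PowerSeries.coeff_map]

/-- **(b) integral structure.** -/
theorem span_int (N : ℕ) [NeZero N] (hN : 3 ≤ N) (k : ℤ) :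
    Submodule.span ℂ {f : CuspForm (CongruenceSubgroup.Gamma1 N) k |
      ∀ n : ℕ, ∃ m : ℤ, ModularFormClass.qCoeff f n = (m : ℂ)} = ⊤ :=
  span_int_of_primitive (CongruenceSubgroup.Gamma1 N) (one_mem_strictPeriods_G1 N)
    (Hform N) (BD_qe_Hform N (by omega)) (mem_Gamma1_of_slash_eq N hN) k

/-- finite dimensionality (any `N ≥ 1`). -/
theorem finiteDimensional (N : ℕ) [NeZero N] (k : ℤ) :
    FiniteDimensional ℂ (CuspForm (CongruenceSubgroup.Gamma1 N) k) :=
  finiteDimensional_cuspForm (CongruenceSubgroup.Gamma1 N) (one_mem_strictPeriods_G1 N) k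

/-- `qCoeff` is additive / homogeneous / injective on `S_k(Γ₁(N))`: the linear map. -/
noncomputable def qMap (N : ℕ) (k : ℤ) : CuspForm (CongruenceSubgroup.Gamma1 N) k →ₗ[ℂ] (ℕ → ℂ) :=
  coeffMap (CongruenceSubgroup.Gamma1 N) (one_mem_strictPeriods_G1 N) k

theorem qMap_apply {N : ℕ} {k : ℤ} (f : CuspForm (CongruenceSubgroup.Gamma1 N) k) (n : ℕ) :
    qMap N k f n = ModularFormClass.qCoeff f n := rfl

theorem qMap_injective (N : ℕ) (k : ℤ) : Function.Injective (qMap N k) :=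
  coeffMap_injective _ _ k

/-- all `q`-coefficients of `f` lie in one finitely generated `ℤ`-submodule of `ℂ`. -/
theorem exists_fg_qCoeff (N : ℕ) [NeZero N] (hN : 3 ≤ N) (k : ℤ)
    (f : CuspForm (CongruenceSubgroup.Gamma1 N) k) :
    ∃ L : Submodule ℤ ℂ, L.FG ∧ ∀ n : ℕ, ModularFormClass.qCoeff f n ∈ L := by
  have hf : f ∈ Submodule.span ℂ {f : CuspForm (CongruenceSubgroup.Gamma1 N) k |
      ∀ n : ℕ, ∃ m : ℤ, ModularFormClass.qCoeff f n = (m : ℂ)} := by
    rw [span_int N hN k]; trivial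
  induction hf using Submodule.span_induction with
  | mem g hg =>
    refine ⟨Submodule.span ℤ {1}, Submodule.fg_span_singleton _, fun n => ?_⟩
    obtain ⟨m, hm⟩ := hg n
    rw [hm, Submodule.mem_span_singleton]
    exact ⟨m, by simp⟩
  | zero =>
    refine ⟨⊥, Submodule.fg_bot, fun n => ?_⟩
    rw [← qMap_apply, map_zero]
    simp
  | add g₁ g₂ _ _ h₁ h₂ =>
    obtain ⟨L₁, hL₁, h₁⟩ := h₁
    obtain ⟨L₂, hL₂, h₂⟩ := h₂
    refine ⟨L₁ ⊔ L₂, hL₁.sup hL₂, fun n => ?_⟩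
    rw [← qMap_apply, map_add, Pi.add_apply, qMap_apply, qMap_apply]
    exact Submodule.add_mem_sup (h₁ n) (h₂ n)
  | smul c g _ h =>
    obtain ⟨L, hL, h⟩ := h
    refine ⟨L.map ((LinearMap.mulLeft ℂ c).restrictScalars ℤ), hL.map _, fun n => ?_⟩
    rw [← qMap_apply, map_smul, Pi.smul_apply, qMap_apply]
    exact ⟨_, h n, rfl⟩

end Fermat.Agent.S48.W2
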