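import Fermat.Agent.S48.W2.Generic
import Fermat.Agent.S48.W2.Eis3

/-!
# S48 / W2 : the primitive element of `Γ₁(N)`, definition

`H(τ) = K⁻¹ ∑_{c ≡ 1 (N), d ∈ ℤ} (c τ + d)⁻³`, `K = (-2πi)³/2!`, a modular form of weight `3` on `Γ₁(N)`.
-/

set_option autoImplicit false

open UpperHalfPlane EisensteinSeries Matrix Filter Topology
open scoped MatrixGroups Manifold ModularForm

namespace Fermat.Agent.S48.W2

open Fermat.Agent.S23 Eis3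

noncomputable section

/-- `Γ₁(N)` as a subgroup of `GL₂(ℝ)`. -/
abbrev G1 (N : ℕ) : Subgroup (GL (Fin 2) ℝ) := GG (CongruenceSubgroup.Gamma1 N)

theorem one_mem_strictPeriods_G1 (N : ℕ) : (1 : ℝ) ∈ (G1 N).strictPeriods := by
  simp [CongruenceSubgroup.strictPeriods_Gamma1]

/-- the indicator function of `v 0 ≡ 1 (mod N)`. -/
def cH (N : ℕ) (v : Fin 2 → ℤ) : ℂ := if ((v 0 : ℤ) : ZMod N) = 1 then 1 else 0

theorem norm_cH_le (N : ℕ) (v : Fin 2 → ℤ) : ‖cH N v‖ ≤ 1 := by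
  unfold cH
  split_ifs <;> simp

/-- the normalising constant `(-2πi)³/2!`. -/
def KH : ℂ := (-2 * (Real.pi : ℂ) * Complex.I) ^ 3 / 2

theorem KH_ne_zero : KH ≠ 0 := by
  unfold KH
  have : (Real.pi : ℂ) ≠ 0 := by exact_mod_cast Real.pi_ne_zero
  simp [this, Complex.I_ne_zero]

theorem cH_vecMul_inv (N : ℕ) (γ : SL(2, ℤ)) (v : Fin 2 → ℤ) :
    cH N (v ᵥ* ((γ⁻¹ : SL(2, ℤ)) : Matrix (Fin 2) (Fin 2) ℤ)) =
      if ((v 0 * γ 1 1 - v 1 * γ 1 0 : ℤ) : ZMod N) = 1 then 1 else 0 := by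
  unfold cH
  congr 2
  rw [Matrix.SpecialLinearGroup.SL2_inv_expl]
  simp [Matrix.vecMul, dotProduct, Fin.sum_univ_two]
  ring

theorem cH_vecMul_inv_of_mem (N : ℕ) {γ : SL(2, ℤ)} (hγ : γ ∈ CongruenceSubgroup.Gamma1 N)
    (v : Fin 2 → ℤ) :
    cH N (v ᵥ* ((γ⁻¹ : SL(2, ℤ)) : Matrix (Fin 2) (Fin 2) ℤ)) = cH N v := by
  rw [cH_vecMul_inv]
  rw [CongruenceSubgroup.Gamma1_mem] at hγ
  unfold cH
  congr 1
  push_cast
  rw [hγ.2.1, hγ.2.2]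
  simp

/-- The primitive element `H`. -/
def Hform (N : ℕ) [NeZero N] : ModularForm (G1 N) 3 where
  toFun := KH⁻¹ • Gc (cH N)
  slash_action_eq' := by
    rintro _ ⟨γ, hγ, rfl⟩
    have h1 : Gc (cH N) ∣[(3 : ℤ)] γ = Gc (cH N) := by
      rw [Gc_slash]
      congr 1
      funext v
      exact cH_vecMul_inv_of_mem N hγ v
    have h2 : (KH⁻¹ • Gc (cH N)) ∣[(3 : ℤ)] γ = KH⁻¹ • (Gc (cH N) ∣[(3 : ℤ)] γ) :=
      ModularForm.SL_smul_slash _ _ _ _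
    rw [h1] at h2
    exact h2
  holo' := (Gc_mdiff (norm_cH_le N)).const_smul _
  bdd_at_cusps' := by
    intro c hc
    rw [Subgroup.IsArithmetic.isCusp_iff_isCusp_SL2Z] at hc
    rw [OnePoint.isBoundedAt_iff_forall_SL2Z hc]
    intro γ _
    have h2 : (KH⁻¹ • Gc (cH N)) ∣[(3 : ℤ)] γ = KH⁻¹ • (Gc (cH N) ∣[(3 : ℤ)] γ) :=
      ModularForm.SL_smul_slash _ _ _ _
    show IsBoundedAtImInfty ((KH⁻¹ • Gc (cH N)) ∣[(3 : ℤ)] γ)
    rw [h2, Gc_slash]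
    exact (Gc_isBoundedAtImInfty fun v => norm_cH_le N _).const_smul_left _

theorem coe_Hform (N : ℕ) [NeZero N] : ⇑(Hform N) = KH⁻¹ • Gc (cH N) := rfl

theorem Hform_slash (N : ℕ) [NeZero N] (γ : SL(2, ℤ)) :
    ⇑(Hform N) ∣[(3 : ℤ)] γ =
      KH⁻¹ • Gc (fun v => cH N (v ᵥ* ((γ⁻¹ : SL(2, ℤ)) : Matrix (Fin 2) (Fin 2) ℤ))) := by
  rw [coe_Hform, ModularForm.SL_smul_slash, Gc_slash]

end

end Fermat.Agent.S48.W2
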