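import Fermat.Agent.S48.W2.Prim

/-!
# S48 / W2 : the `q`-expansion of the primitive element `H` of `Γ₁(N)`

`H = ∑_{n ≥ 1} (∑_{c m = n} χ(c) m²) qⁿ`, `χ(c) = [c ≡ 1 (N)] - [c ≡ -1 (N)]`: integer coefficients.

TASKS `S48/W2-PrimQ-A` (`Gc_cH_eq`), `S48/W2-PrimQ-B` (`hasSum_regroup`).

PROOF of `Gc_cH_eq` (model: Mathlib `tsum_eisSummand_eq_tsum_sigma_mul_cexp_pow` in
`NumberTheory/ModularForms/EisensteinSeries/QExpansion.lean`).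
`Gc (cH N) τ = ∑' v : Fin 2 → ℤ, cH N v * eisSummand 3 v τ`, absolutely summable
(`Eis3.summable_term (norm_cH_le N) τ`).  Pass to `ℤ × ℤ` (`(finTwoArrowEquiv ℤ).symm.tsum_eq`,
`Summable.tsum_prod`): `∑' c : ℤ, [c ≡ 1] ∑' d : ℤ, (c τ + d)⁻³`.  Split `ℤ = {0} ∪ ℕ+ ∪ -ℕ+`
(`tsum_int_eq_zero_add_tsum_pnat`-type lemma, or `HasSum.int_rec`/`tsum_of_nat_of_neg_add_one`):
`c = 0` contributes `0` as `(0 : ZMod N) ≠ 1` (`2 ≤ N`);  `c > 0`: Lipschitz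
`EisensteinSeries.qExpansion_identity_pnat (k := 2)` at `⟨c τ, _⟩`:
`∑' d, 1/(c τ + d)³ = KH * ∑' m : ℕ+, m² exp(2πi c τ)^m`;
`c = -c' < 0`: `(-c' τ + d)⁻³ = -(c' τ + (-d))⁻³`, `tsum_comp_neg`, and `[-c' ≡ 1] = [c' ≡ -1]`.

PROOF of `hasSum_regroup` (model: Mathlib `tsum_prod_pow_eq_tsum_sigma`,
`summable_prod_mul_pow` in `NumberTheory/TsumDivisorsAntidiagonal.lean`):
`‖χ(c) m² r^(cm)‖ ≤ ‖m² r^(cm)‖`, summable on `ℕ+ × ℕ+`; transport along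
`sigmaAntidiagonalEquivProd`; `Summable.tsum_sigma`/`HasSum.sigma`; finally pass from `ℕ+` to `ℕ`
(`hCoeff N 0 = 0` since `divisorsAntidiagonal 0 = ∅`).
-/

set_option autoImplicit false

open UpperHalfPlane EisensteinSeries Matrix Filter Topology Complex
open scoped MatrixGroups Manifold ModularForm Real

namespace Fermat.Agent.S48.W2

open Fermat.Agent.S23 Eis3

noncomputable section

/-- `χ(c) = [c ≡ 1 (N)] - [c ≡ -1 (N)]`. -/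
def chiH (N : ℕ) (c : ℕ) : ℤ :=
  (if (c : ZMod N) = 1 then 1 else 0) - (if (c : ZMod N) = -1 then 1 else 0)

/-- the `q`-coefficients of `H`. -/
def hCoeff (N n : ℕ) : ℤ := ∑ x ∈ n.divisorsAntidiagonal, chiH N x.1 * (x.2 : ℤ) ^ 2

theorem PrimQ_term (N : ℕ) (τ : ℍ) (c d : ℤ) :
    cH N ![c, d] * eisSummand 3 ![c, d] τ =
      (if (c : ZMod N) = 1 then (1 : ℂ) else 0) * (1 / ((c : ℂ) * τ + d) ^ 3) := by
  unfold cH eisSummand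
  simp only [Matrix.cons_val_zero, Matrix.cons_val_one, Matrix.cons_val_fin_one]
  rw [_root_.zpow_neg, zpow_ofNat, one_div]
  by_cases h : (c : ZMod N) = 1 <;> simp [h]

theorem PrimQ_lipschitz (τ : ℍ) (c : ℕ+) :
    ∑' d : ℤ, 1 / ((((c : ℕ) : ℤ) : ℂ) * τ + d) ^ 3 =
      KH * ∑' m : ℕ+, (m : ℂ) ^ 2 * cexp (2 * π * Complex.I * τ) ^ (c * m : ℕ) := by
  have H := qExpansion_identity_pnat (k := 2) (by norm_num)
    ⟨((c : ℕ) : ℂ) * τ, by simpa using τ.2⟩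
  have hK : ((-2 * π * Complex.I) ^ (2 + 1) / ((Nat.factorial 2 : ℕ) : ℂ)) = KH := by
    simp [KH, Nat.factorial]
  rw [hK] at H
  have h1 : ∀ m : ℕ+, ((m : ℕ) : ℂ) ^ 2 * cexp (2 * π * Complex.I * (((c : ℕ) : ℂ) * τ)) ^ (m : ℕ)
      = (m : ℂ) ^ 2 * cexp (2 * π * Complex.I * τ) ^ (c * m : ℕ) := by
    intro m
    rw [← Complex.exp_nat_mul, ← Complex.exp_nat_mul]
    congr 2
    push_cast
    ring
  rw [← tsum_congr h1, ← H]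
  refine tsum_congr fun d => ?_
  simp

theorem PrimQ_neg (τ : ℍ) (c : ℕ+) :
    ∑' d : ℤ, 1 / (((-((c : ℕ) : ℤ) : ℤ) : ℂ) * τ + d) ^ 3 =
      - ∑' d : ℤ, 1 / ((((c : ℕ) : ℤ) : ℂ) * τ + d) ^ 3 := by
  rw [← tsum_comp_neg, ← tsum_neg]
  refine tsum_congr fun d => ?_
  have h : (((-((c : ℕ) : ℤ) : ℤ) : ℂ) * τ + ((-d : ℤ) : ℂ)) = -((((c : ℕ) : ℤ) : ℂ) * τ + d) := by
    push_cast
    ring
  rw [h, Odd.neg_pow (by decide), one_div, one_div, inv_neg]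

/-- TASK `S48/W2-PrimQ-A`. -/
theorem Gc_cH_eq (N : ℕ) (hN : 2 ≤ N) (τ : ℍ) :
    Gc (cH N) τ = KH * ∑' c : ℕ+, ∑' m : ℕ+,
      (chiH N c : ℂ) * (m : ℂ) ^ 2 * cexp (2 * π * Complex.I * τ) ^ (c * m : ℕ) := by
  set g : ℤ → ℂ := fun c => (if (c : ZMod N) = 1 then (1 : ℂ) else 0) *
    ∑' d : ℤ, 1 / ((c : ℂ) * τ + d) ^ 3 with hg_def
  have hsum : Summable fun x : ℤ × ℤ => cH N ![x.1, x.2] * eisSummand 3 ![x.1, x.2] τ := by
    refine (finTwoArrowEquiv ℤ).summable_iff.mp <|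
      (summable_term (norm_cH_le N) τ).congr (fun v => ?_)
    simp [show ![v 0, v 1] = v from List.ofFn_inj.mp rfl]
  have hfib : ∀ c : ℤ, ∑' d : ℤ, cH N ![c, d] * eisSummand 3 ![c, d] τ = g c := by
    intro c
    rw [hg_def]
    simp only
    rw [← tsum_mul_left]
    exact tsum_congr fun d => PrimQ_term N τ c d
  have h1 : Gc (cH N) τ = ∑' c : ℤ, g c := by
    unfold Gc
    rw [← (finTwoArrowEquiv ℤ).symm.tsum_eq, finTwoArrowEquiv_symm_apply,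
      Summable.tsum_prod hsum]
    exact tsum_congr hfib
  have hg : Summable g := hsum.prod.congr hfib
  have hinj : Function.Injective (fun c : ℕ+ => ((c : ℕ) : ℤ)) := fun a b h => by
    exact PNat.coe_injective (Nat.cast_injective h)
  have h3 : Summable fun c : ℕ+ => g ((c : ℕ) : ℤ) := hg.comp_injective hinj
  have h4 : Summable fun c : ℕ+ => g (-((c : ℕ) : ℤ)) :=
    hg.comp_injective (neg_injective.comp hinj)
  have h0 : g 0 = 0 := by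
    have : Fact (1 < N) := ⟨by omega⟩
    rw [hg_def]
    simp
  rw [h1, tsum_int_eq_zero_add_tsum_pnat hg, h0, zero_add, ← h3.tsum_add h4, ← tsum_mul_left]
  refine tsum_congr fun c => ?_
  have h5 : g ((c : ℕ) : ℤ) = (if ((c : ℕ) : ZMod N) = 1 then (1 : ℂ) else 0) *
      (KH * ∑' m : ℕ+, (m : ℂ) ^ 2 * cexp (2 * π * Complex.I * τ) ^ (c * m : ℕ)) := by
    rw [hg_def]
    simp only
    rw [PrimQ_lipschitz, Int.cast_natCast]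
  have h6 : g (-((c : ℕ) : ℤ)) = (if ((c : ℕ) : ZMod N) = -1 then (1 : ℂ) else 0) *
      (-(KH * ∑' m : ℕ+, (m : ℂ) ^ 2 * cexp (2 * π * Complex.I * τ) ^ (c * m : ℕ))) := by
    rw [hg_def]
    simp only
    rw [PrimQ_neg, PrimQ_lipschitz, Int.cast_neg, Int.cast_natCast]
    simp only [neg_eq_iff_eq_neg]
  rw [h5, h6]
  have h7 : ∀ m : ℕ+, (chiH N c : ℂ) * (m : ℂ) ^ 2 * cexp (2 * π * Complex.I * τ) ^ (c * m : ℕ)
      = (chiH N c : ℂ) * ((m : ℂ) ^ 2 * cexp (2 * π * Complex.I * τ) ^ (c * m : ℕ)) :=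
    fun m => mul_assoc _ _ _
  rw [tsum_congr h7, tsum_mul_left]
  unfold chiH
  push_cast
  ring

theorem PrimQB_norm_chiH_le (N c : ℕ) : ‖(chiH N c : ℂ)‖ ≤ 1 := by
  unfold chiH
  split_ifs <;> simp

theorem PrimQB_summable (N : ℕ) {r : ℂ} (hr : ‖r‖ < 1) :
    Summable fun p : ℕ+ × ℕ+ => (chiH N p.1 : ℂ) * (p.2 : ℂ) ^ 2 * r ^ (p.1 * p.2 : ℕ) := by
  refine Summable.of_norm_bounded (summable_prod_mul_pow (𝕜 := ℂ) 2 hr).norm fun p => ?_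
  rw [mul_assoc, norm_mul]
  calc ‖(chiH N p.1 : ℂ)‖ * ‖(p.2 : ℂ) ^ 2 * r ^ (p.1 * p.2 : ℕ)‖
      ≤ 1 * ‖(p.2 : ℂ) ^ 2 * r ^ (p.1 * p.2 : ℕ)‖ :=
        mul_le_mul_of_nonneg_right (PrimQB_norm_chiH_le N _) (norm_nonneg _)
    _ = _ := by rw [one_mul]

/-- TASK `S48/W2-PrimQ-B`. -/
theorem hasSum_regroup (N : ℕ) {r : ℂ} (hr : ‖r‖ < 1) :
    HasSum (fun n : ℕ => (hCoeff N n : ℂ) * r ^ n)
      (∑' c : ℕ+, ∑' m : ℕ+, (chiH N c : ℂ) * (m : ℂ) ^ 2 * r ^ (c * m : ℕ)) := by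
  have hs := PrimQB_summable N hr
  have h1 : HasSum (fun p : ℕ+ × ℕ+ => (chiH N p.1 : ℂ) * (p.2 : ℂ) ^ 2 * r ^ (p.1 * p.2 : ℕ))
      (∑' c : ℕ+, ∑' m : ℕ+, (chiH N c : ℂ) * (m : ℂ) ^ 2 * r ^ (c * m : ℕ)) := by
    have h := hs.hasSum
    rwa [hs.tsum_prod] at h
  have h2 := (sigmaAntidiagonalEquivProd.hasSum_iff).mpr h1
  have h3 : HasSum (fun n : ℕ+ => (hCoeff N n : ℂ) * r ^ (n : ℕ))
      (∑' c : ℕ+, ∑' m : ℕ+, (chiH N c : ℂ) * (m : ℂ) ^ 2 * r ^ (c * m : ℕ)) := by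
    refine h2.sigma fun n => ?_
    have h4 := hasSum_fintype (fun c : (n : ℕ).divisorsAntidiagonal =>
      ((fun p : ℕ+ × ℕ+ => (chiH N p.1 : ℂ) * (p.2 : ℂ) ^ 2 * r ^ (p.1 * p.2 : ℕ)) ∘
        sigmaAntidiagonalEquivProd) ⟨n, c⟩)
    convert h4 using 1
    rw [Finset.univ_eq_attach]
    have h5 : ∀ c : (n : ℕ).divisorsAntidiagonal,
        ((fun p : ℕ+ × ℕ+ => (chiH N p.1 : ℂ) * (p.2 : ℂ) ^ 2 * r ^ (p.1 * p.2 : ℕ)) ∘
        sigmaAntidiagonalEquivProd) ⟨n, c⟩ =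
        (chiH N c.1.1 : ℂ) * (c.1.2 : ℂ) ^ 2 * r ^ (n : ℕ) := by
      intro c
      have h6 := (Nat.mem_divisorsAntidiagonal.mp c.2).1
      simp [sigmaAntidiagonalEquivProd, divisorsAntidiagonalFactors, h6]
    simp_rw [h5]
    rw [(n : ℕ).divisorsAntidiagonal.sum_attach
      (fun x : ℕ × ℕ => (chiH N x.1 : ℂ) * (x.2 : ℂ) ^ 2 * r ^ (n : ℕ)), ← Finset.sum_mul]
    simp [hCoeff]
  refine (Function.Injective.hasSum_iff (g := fun n : ℕ+ => (n : ℕ)) PNat.coe_injective ?_).mp h3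
  intro x hx
  have hx0 : x = 0 := by
    by_contra h
    exact hx ⟨⟨x, Nat.pos_of_ne_zero h⟩, rfl⟩
  subst hx0
  simp [hCoeff]

local notation "𝕢" => Function.Periodic.qParam

theorem hasSum_Hform (N : ℕ) [NeZero N] (hN : 2 ≤ N) (τ : ℍ) :
    HasSum (fun n : ℕ => (hCoeff N n : ℂ) • 𝕢 1 (τ : ℂ) ^ n) (Hform N τ) := by
  have hq : 𝕢 1 (τ : ℂ) = cexp (2 * π * Complex.I * τ) := by
    simp [Function.Periodic.qParam]
  have h1 : Hform N τ = ∑' c : ℕ+, ∑' m : ℕ+,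
      (chiH N c : ℂ) * (m : ℂ) ^ 2 * cexp (2 * π * Complex.I * τ) ^ (c * m : ℕ) := by
    rw [coe_Hform, Pi.smul_apply, Gc_cH_eq N hN, smul_eq_mul, inv_mul_cancel_left₀ KH_ne_zero]
  rw [h1, hq]
  simpa only [smul_eq_mul] using hasSum_regroup N (norm_exp_two_pi_I_lt_one τ)

theorem qe_Hform_coeff (N : ℕ) [NeZero N] (hN : 2 ≤ N) (n : ℕ) :
    (qe (Hform N)).coeff n = (hCoeff N n : ℂ) :=
  (ModularFormClass.qExpansion_coeff_unique one_pos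
    (one_mem_strictPeriods_G1 N) (hasSum_Hform N hN) n).symm

theorem BD_qe_Hform (N : ℕ) [NeZero N] (hN : 2 ≤ N) : BD (qe (Hform N)) :=
  ⟨1, one_ne_zero, fun n => ⟨hCoeff N n, by rw [qe_Hform_coeff N hN]; simp⟩⟩

end

end Fermat.Agent.S48.W2
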